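import Mathlib
import Fermat.Prelude.Def_ModularCurve_LaurentCoeff
import Fermat.Agent.RED.DESC.CoeffDescent1

/-!
# T1A / G7 DICT, helper67: descent of the coefficient field, generic form

`K ⊆ K'` an algebraic extension of fields of characteristic `0`, `F₀ ⊆ ℚ((q))`.  An element of
`K'·F₀ ⊆ K'((q))` all of whose coefficients lie in `K` lies in (the image of) `K·F₀`
(`exists_descent_of_coeff_mem`).

Proof (basis free, no finiteness, no Galois theory): let `E` be the image of `K·F₀` in `K'((q))`.
The `E`-algebra `V` generated by the constants `K'` is integral over `E`, hence a field; it contains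
`K'` and `F₀`, so `K'·F₀ ⊆ V`, and `V` is the additive span of the products `ι e * b`
(`e ∈ K·F₀`, `b ∈ K'`).  Apply a `K`-linear retraction `λ : K' → K` coefficientwise:
`Λ (ι e * b) = e * λ b ∈ K·F₀`, and `Λ y = y` if the coefficients of `y` lie in `K`.
-/

set_option autoImplicit false
set_option linter.unusedSectionVars false

noncomputable section

open HahnSeries ModularCurve IntermediateField
open Fermat.Agent.RED.DESC.CoeffDescent1

namespace Fermat.Agent.T1.Dict67

section Generic

variable {K K' : Type*} [Field K] [Field K'] [Algebra ℚ K] [Algebra ℚ K'] [Algebra K K']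
variable (F₀ : IntermediateField ℚ (LaurentSeries ℚ))

/-- The image of `K·F₀` in `K'((q))`, a subfield. -/
def imgField : Subfield (LaurentSeries K') :=
  (laurentBaseChange K F₀).toSubfield.map (coeffMap (algebraMap K K'))

theorem mem_imgField {y : LaurentSeries K'} :
    y ∈ imgField (K := K) (K' := K') F₀ ↔
      ∃ e ∈ laurentBaseChange K F₀, coeffMap (algebraMap K K') e = y := by
  rw [imgField, Subfield.mem_map]
  rfl

theorem const_mem_imgField (a : K) :
    algebraMap K' (LaurentSeries K') (algebraMap K K' a) ∈ imgField (K := K) (K' := K') F₀ :=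
  (mem_imgField F₀).2 ⟨algebraMap K (LaurentSeries K) a, (laurentBaseChange K F₀).algebraMap_mem a,
    coeffMap_algebraMap_of_ringHom _ a⟩

variable [Algebra.IsAlgebraic K K']

/-- The constants of `K'` are integral over the image of `K·F₀`. -/
theorem isIntegral_const (b : K') :
    IsIntegral (imgField (K := K) (K' := K') F₀) (algebraMap K' (LaurentSeries K') b) := by
  obtain ⟨p, hp, hpb⟩ := Algebra.IsIntegral.isIntegral (R := K) b
  let f : K →+* imgField (K := K) (K' := K') F₀ :=
    ((algebraMap K' (LaurentSeries K')).comp (algebraMap K K')).codRestrict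
      (imgField (K := K) (K' := K') F₀) (fun a => const_mem_imgField F₀ a)
  refine ⟨p.map f, hp.map f, ?_⟩
  rw [Polynomial.eval₂_map]
  have hcomp : (algebraMap (imgField (K := K) (K' := K') F₀) (LaurentSeries K')).comp f
      = (algebraMap K' (LaurentSeries K')).comp (algebraMap K K') := RingHom.ext fun a => rfl
  rw [hcomp, ← Polynomial.hom_eval₂, hpb, map_zero]

/-- The algebra generated over the image of `K·F₀` by the constants of `K'`. -/
def adjV : Subalgebra (imgField (K := K) (K' := K') F₀) (LaurentSeries K') :=
  Algebra.adjoin _ (Set.range (algebraMap K' (LaurentSeries K')))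

theorem isIntegral_of_mem_adjV {x : LaurentSeries K'} (hx : x ∈ adjV (K := K) (K' := K') F₀) :
    IsIntegral (imgField (K := K) (K' := K') F₀) x := by
  have hle : adjV (K := K) (K' := K') F₀
      ≤ integralClosure (imgField (K := K) (K' := K') F₀) (LaurentSeries K') :=
    Algebra.adjoin_le (by
      rintro _ ⟨b, rfl⟩
      exact isIntegral_const F₀ b)
  exact hle hx

theorem inv_mem_adjV {x : LaurentSeries K'} (hx : x ∈ adjV (K := K) (K' := K') F₀) :
    x⁻¹ ∈ adjV (K := K) (K' := K') F₀ :=
  (adjV (K := K) (K' := K') F₀).inv_mem_of_algebraic (x := ⟨x, hx⟩)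
    (isIntegral_of_mem_adjV F₀ hx).isAlgebraic

/-- `K'·F₀` is contained in `adjV`. -/
theorem mem_adjV_of_mem_laurentBaseChange {y : LaurentSeries K'}
    (hy : y ∈ laurentBaseChange K' F₀) : y ∈ adjV (K := K) (K' := K') F₀ := by
  rw [mem_laurentBaseChange_iff] at hy
  induction hy using Subfield.closure_induction with
  | mem y hy =>
      rcases hy with ⟨a, rfl⟩ | ⟨z, hz, rfl⟩
      · exact Algebra.subset_adjoin ⟨a, rfl⟩
      · have hmem : coeffEmb K' z ∈ imgField (K := K) (K' := K') F₀ :=
          (mem_imgField F₀).2 ⟨coeffEmb K z, coeffEmb_mem_laurentBaseChange K hz,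
            coeffMap_coeffEmb_of_algHom _ z⟩
        exact (adjV (K := K) (K' := K') F₀).algebraMap_mem ⟨_, hmem⟩
  | one => exact one_mem _
  | add x y _ _ hx hy => exact add_mem hx hy
  | neg x _ hx => exact neg_mem hx
  | inv x _ hx => exact inv_mem_adjV F₀ hx
  | mul x y _ _ hx hy => exact mul_mem hx hy

/-- The additive span of the products `ι e * b`. -/
def genW : AddSubmonoid (LaurentSeries K') :=
  AddSubmonoid.closure {x | ∃ e ∈ laurentBaseChange K F₀, ∃ b : K',
    x = coeffMap (algebraMap K K') e * algebraMap K' (LaurentSeries K') b}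

theorem img_mul_mem_genW {e : LaurentSeries K} (he : e ∈ laurentBaseChange K F₀)
    {x : LaurentSeries K'} (hx : x ∈ genW (K := K) (K' := K') F₀) :
    coeffMap (algebraMap K K') e * x ∈ genW (K := K) (K' := K') F₀ := by
  induction hx using AddSubmonoid.closure_induction with
  | mem x hx =>
      obtain ⟨e', he', b, rfl⟩ := hx
      refine AddSubmonoid.subset_closure ⟨e * e', mul_mem he he', b, ?_⟩
      rw [map_mul, mul_assoc]
  | zero => rw [mul_zero]; exact zero_mem _
  | add x y _ _ hx hy => rw [mul_add]; exact add_mem hx hy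

theorem mem_genW_of_mem_adjV {x : LaurentSeries K'} (hx : x ∈ adjV (K := K) (K' := K') F₀) :
    x ∈ genW (K := K) (K' := K') F₀ := by
  have hx' : x ∈ Subalgebra.toSubmodule (adjV (K := K) (K' := K') F₀) := hx
  rw [adjV, Algebra.adjoin_eq_span] at hx'
  clear hx
  induction hx' using Submodule.span_induction with
  | mem y hy =>
      have hle : Submonoid.closure (Set.range (algebraMap K' (LaurentSeries K')))
          ≤ (algebraMap K' (LaurentSeries K')).rangeS.toSubmonoid :=
        Submonoid.closure_le.2 (fun z hz => hz)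
      obtain ⟨b, rfl⟩ := hle hy
      exact AddSubmonoid.subset_closure ⟨1, one_mem _, b, by rw [map_one, one_mul]⟩
  | zero => exact zero_mem _
  | add y z _ _ hy hz => exact add_mem hy hz
  | smul r y _ hy =>
      obtain ⟨e, he, hr⟩ := (mem_imgField F₀).1 r.2
      have : r • y = coeffMap (algebraMap K K') e * y := by
        rw [hr]
        rfl
      rw [this]
      exact img_mul_mem_genW F₀ he hy

omit [Algebra.IsAlgebraic K K'] in
/-- A `K`-linear retraction of `K → K'`. -/
theorem exists_retraction :
    ∃ lam : K' →ₗ[K] K, ∀ a : K, lam (algebraMap K K' a) = a := by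
  obtain ⟨g, hg⟩ := LinearMap.exists_leftInverse_of_injective (Algebra.linearMap K K')
    (LinearMap.ker_eq_bot.2 (algebraMap K K').injective)
  exact ⟨g, fun a => by simpa using LinearMap.congr_fun hg a⟩

/-- A `K`-linear map `K' → K`, applied coefficientwise. -/
def coeffLin (lam : K' →ₗ[K] K) : LaurentSeries K' →+ LaurentSeries K where
  toFun x := x.map lam
  map_zero' := by
    ext k
    simp
  map_add' x y := by
    ext k
    simp

omit [Algebra.IsAlgebraic K K'] in
@[simp]
theorem coeffLin_coeff (lam : K' →ₗ[K] K) (x : LaurentSeries K') (k : ℤ) :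
    (coeffLin lam x).coeff k = lam (x.coeff k) := rfl

omit [Algebra.IsAlgebraic K K'] in
theorem coeffLin_img_mul_const (lam : K' →ₗ[K] K) (e : LaurentSeries K) (b : K') :
    coeffLin lam (coeffMap (algebraMap K K') e * algebraMap K' (LaurentSeries K') b)
      = e * algebraMap K (LaurentSeries K) (lam b) := by
  rw [algebraMap_laurentSeries_eq_single, algebraMap_laurentSeries_eq_single]
  ext k
  rw [coeffLin_coeff, HahnSeries.coeff_mul_single_zero, HahnSeries.coeff_mul_single_zero,
    coeffMap_coeff, ← Algebra.smul_def, map_smul, smul_eq_mul]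

/-- The coefficientwise retraction maps `K'·F₀` into `K·F₀`. -/
theorem coeffLin_mem (lam : K' →ₗ[K] K) {y : LaurentSeries K'}
    (hy : y ∈ laurentBaseChange K' F₀) : coeffLin lam y ∈ laurentBaseChange K F₀ := by
  have hW := mem_genW_of_mem_adjV F₀ (mem_adjV_of_mem_laurentBaseChange (K := K) F₀ hy)
  clear hy
  induction hW using AddSubmonoid.closure_induction with
  | mem x hx =>
      obtain ⟨e, he, b, rfl⟩ := hx
      rw [coeffLin_img_mul_const]
      exact mul_mem he ((laurentBaseChange K F₀).algebraMap_mem _)
  | zero => rw [map_zero]; exact zero_mem _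
  | add x y _ _ hx hy => rw [map_add]; exact add_mem hx hy

/-- **Descent of the coefficient field.** -/
theorem exists_descent_of_coeff_mem {y : LaurentSeries K'} (hy : y ∈ laurentBaseChange K' F₀)
    (hc : ∀ k : ℤ, ∃ a : K, y.coeff k = algebraMap K K' a) :
    ∃ z ∈ laurentBaseChange K F₀, coeffMap (algebraMap K K') z = y := by
  obtain ⟨lam, hlam⟩ := exists_retraction (K := K) (K' := K')
  refine ⟨coeffLin lam y, coeffLin_mem F₀ lam hy, ?_⟩
  ext k
  obtain ⟨a, ha⟩ := hc k
  rw [coeffMap_coeff, coeffLin_coeff, ha, hlam]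

end Generic

end Fermat.Agent.T1.Dict67
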