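import Mathlib
import Fermat.Prelude.Def_ModularCurve_ArithmeticGalois
import Fermat.Agent.X0.FFDict
import Fermat.Agent.RED.DESC.CoeffDescent1

/-!
# T1A / G7 DICT, helper67: generic core for D-GAL and D-BC

Generic facts (no modular curves) about a ring homomorphism `c : F₁ → F` from a function field
`F₁/K₁` to a function field `F/K`, places `w` of `F/K`, and charts
`integralClosure (K₁[t]) F₁`:

* `map_mem_of_mem_integralClosure` : `c` maps the chart `integralClosure K₁[t] F₁` into `O_w`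
  whenever `c t ∈ O_w` and `c (K₁) ⊆ O_w`;
* `OrdGE` : the predicate `x = 0 ∨ m ≤ w.ord (c x)`, closed under sums and chart multiples;
* `ordGE_of_mem_span` : it passes to the span over the chart.
-/

set_option autoImplicit false

open AlgebraicCurve

namespace Fermat.Agent.T1.Dict67

open Fermat.Agent.X0.FF

section Generic

variable {K F : Type*} [Field K] [Field F] [Algebra K F]
variable {K₁ F₁ : Type*} [Field K₁] [Field F₁] [Algebra K₁ F₁]

/-- A ring homomorphism maps the integral closure of `K₁[t]` into a valuation ring containing the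
images of `K₁` and `t`. -/
theorem map_mem_of_mem_integralClosure (c : F₁ →+* F) (A : ValuationSubring F)
    (hK : ∀ a : K₁, c (algebraMap K₁ F₁ a) ∈ A) (t : F₁) (ht : c t ∈ A) {x : F₁}
    (hx : x ∈ integralClosure (Algebra.adjoin K₁ {t}) F₁) : c x ∈ A := by
  have hadj : ∀ a : Algebra.adjoin K₁ ({t} : Set F₁), c (a : F₁) ∈ A := by
    rintro ⟨a, ha⟩
    induction ha using Algebra.adjoin_induction with
    | mem y hy =>
        rw [Set.mem_singleton_iff] at hy
        subst hy
        exact ht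
    | algebraMap r => exact hK r
    | add y z _ _ hy hz => simpa using A.add_mem _ _ hy hz
    | mul y z _ _ hy hz => simpa using A.mul_mem _ _ hy hz
  let φ : Algebra.adjoin K₁ ({t} : Set F₁) →+* A :=
    (c.comp (Algebra.adjoin K₁ ({t} : Set F₁)).val.toRingHom).codRestrict A.toSubring hadj
  have hint : IsIntegral A (c x) :=
    IsIntegral.map_of_comp_eq φ c (RingHom.ext fun a => rfl) hx
  obtain ⟨y, hy⟩ := (IsIntegrallyClosed.isIntegral_iff (R := A) (K := F)).1 hint
  rw [← hy]
  exact y.2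

/-- `x = 0` or `m ≤ ord_w (c x)`: the convenient form of "`ord_w (c x) ≥ m`". -/
def OrdGE (c : F₁ →+* F) (w : Place K F) (m : ℤ) (x : F₁) : Prop :=
  x = 0 ∨ m ≤ w.ord (c x)

theorem ordGE_zero (c : F₁ →+* F) (w : Place K F) (m : ℤ) : OrdGE c w m 0 := Or.inl rfl

theorem OrdGE.add {c : F₁ →+* F} {w : Place K F} {m : ℤ} {x y : F₁}
    (hx : OrdGE c w m x) (hy : OrdGE c w m y) : OrdGE c w m (x + y) := by
  rcases hx with rfl | hx
  · rw [zero_add]; exact hy
  rcases hy with rfl | hy
  · rw [add_zero]; exact Or.inr hx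
  by_cases h0 : x + y = 0
  · exact Or.inl h0
  right
  have hne : c x + c y ≠ 0 := by
    rw [← map_add]
    exact (map_ne_zero c).2 h0
  have := ord_add_ge w hne
  rw [map_add]
  exact le_trans (le_min hx hy) this

theorem OrdGE.mul_left {c : F₁ →+* F} {w : Place K F} {m : ℤ} {b x : F₁}
    (hb : c b ∈ w.toValuationSubring) (hx : OrdGE c w m x) : OrdGE c w m (b * x) := by
  rcases hx with rfl | hx
  · exact Or.inl (mul_zero b)
  by_cases hb0 : b = 0
  · exact Or.inl (by rw [hb0, zero_mul])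
  by_cases hx0 : x = 0
  · exact Or.inl (by rw [hx0, mul_zero])
  right
  rw [map_mul, w.ord_mul ((map_ne_zero c).2 hb0) ((map_ne_zero c).2 hx0)]
  have := ord_nonneg_of_mem w hb
  omega

/-- `OrdGE` passes from a generating set to the span over any subalgebra mapped into `O_w`. -/
theorem ordGE_of_mem_span {c : F₁ →+* F} {w : Place K F} {m : ℤ} (R : Subalgebra K₁ F₁)
    (hR : ∀ b ∈ R, c b ∈ w.toValuationSubring) (S : Set F₁) (hS : ∀ x ∈ S, OrdGE c w m x)
    {x : F₁} (hx : x ∈ Submodule.span R S) : OrdGE c w m x := by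
  induction hx using Submodule.span_induction with
  | mem y hy => exact hS y hy
  | zero => exact ordGE_zero c w m
  | add y z _ _ hy hz => exact hy.add hz
  | smul b y _ hy => exact hy.mul_left (hR b.1 b.2)

/-- Transport of `ord` along a semilinear automorphism `g` of `F/K` covered by `τ` on `F₁`. -/
theorem ord_smul_of_comm (c : F₁ →+* F) (g : SemilinearAut K F) (τ : F₁ →+* F₁)
    (hτ : ∀ x, c (τ x) = g • c x) (w : Place K F) (x : F₁) :
    (g • w).ord (c (τ x)) = w.ord (c x) := by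
  rw [hτ]
  exact SemilinearAut.ord_smul g w (c x)

theorem mem_smul_place_iff (g : SemilinearAut K F) (w : Place K F) (f : F) :
    g • f ∈ (g • w).toValuationSubring ↔ f ∈ w.toValuationSubring := by
  rw [SemilinearAut.smul_toValuationSubring,
    ValuationSubring.mem_pointwise_smul_iff_inv_smul_mem, inv_smul_smul]

/-- The set of orders at `w` of the nonzero elements of `I` (the set whose `sInf` is the `ordAt` of
`Dict59.Iface`). -/
def ordSet (c : F₁ →+* F) (w : Place K F) (I : Set F₁) : Set ℤ :=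
  {n : ℤ | ∃ f ∈ I, f ≠ 0 ∧ w.ord (c f) = n}

theorem ordSet_nonempty (c : F₁ →+* F) (w : Place K F) {R : Type*} [CommRing R] [Algebra R F₁]
    (I : Submodule R F₁) (hne : I ≠ ⊥) : (ordSet c w (I : Set F₁)).Nonempty := by
  obtain ⟨f, hf, hf0⟩ := (Submodule.ne_bot_iff I).1 hne
  exact ⟨w.ord (c f), f, hf, hf0, rfl⟩

/-- A finitely generated module over a subalgebra mapped into `O_w` has orders bounded below. -/
theorem exists_ordGE_of_fg (c : F₁ →+* F) (w : Place K F) (R : Subalgebra K₁ F₁)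
    (hR : ∀ b ∈ R, c b ∈ w.toValuationSubring) (I : Submodule R F₁) (hfg : I.FG) :
    ∃ m : ℤ, ∀ x ∈ I, OrdGE c w m x := by
  classical
  obtain ⟨G, hG⟩ := hfg
  obtain ⟨m, hm⟩ := (G.image fun g => w.ord (c g)).finite_toSet.bddBelow
  refine ⟨m, fun x hx => ?_⟩
  rw [← hG] at hx
  refine ordGE_of_mem_span R hR (G : Set F₁) (fun y hy => Or.inr ?_) hx
  exact hm (Finset.mem_coe.2 (Finset.mem_image_of_mem _ hy))

theorem bddBelow_ordSet_of_fg (c : F₁ →+* F) (w : Place K F) (R : Subalgebra K₁ F₁)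
    (hR : ∀ b ∈ R, c b ∈ w.toValuationSubring) (I : Submodule R F₁) (hfg : I.FG) :
    BddBelow (ordSet c w (I : Set F₁)) := by
  obtain ⟨m, hm⟩ := exists_ordGE_of_fg c w R hR I hfg
  refine ⟨m, ?_⟩
  rintro n ⟨f, hf, hf0, rfl⟩
  exact (hm f hf).resolve_left hf0

variable {K₂ F₂ : Type*} [Field K₂] [Field F₂] [Algebra K₂ F₂]

/-- **Base change does not change the minimal order**: if `I' = R' · φ(I)` with `R`, `R'` mapped
into `O_w` and `I` finitely generated over `R`, the two `sInf` agree. -/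
theorem sInf_ordSet_baseChange (c : F₁ →+* F) (c' : F₂ →+* F) (φ : F₁ →+* F₂)
    (hφ : ∀ x, c' (φ x) = c x) (w : Place K F)
    (R : Subalgebra K₁ F₁) (hR : ∀ b ∈ R, c b ∈ w.toValuationSubring)
    (R' : Subalgebra K₂ F₂) (hR' : ∀ b ∈ R', c' b ∈ w.toValuationSubring)
    (I : Submodule R F₁) (hfg : I.FG) (hne : I ≠ ⊥) (I' : Submodule R' F₂)
    (hI' : ∀ x, x ∈ I' ↔ x ∈ Submodule.span R' (φ '' (I : Set F₁))) :
    sInf (ordSet c' w (I' : Set F₂)) = sInf (ordSet c w (I : Set F₁)) := by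
  have hbdd := bddBelow_ordSet_of_fg c w R hR I hfg
  have hnon := ordSet_nonempty c w I hne
  have hmem : sInf (ordSet c w (I : Set F₁)) ∈ ordSet c w (I : Set F₁) :=
    Int.csInf_mem hnon hbdd
  -- `ordSet I ⊆ ordSet I'`
  have hsub : ordSet c w (I : Set F₁) ⊆ ordSet c' w (I' : Set F₂) := by
    rintro n ⟨f, hf, hf0, rfl⟩
    refine ⟨φ f, ?_, (map_ne_zero φ).2 hf0, by rw [hφ]⟩
    exact (hI' _).2 (Submodule.subset_span ⟨f, hf, rfl⟩)
  -- every order of `I'` is `≥ sInf (ordSet I)`
  have hge : ∀ x ∈ I', OrdGE c' w (sInf (ordSet c w (I : Set F₁))) x := by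
    intro x hx
    refine ordGE_of_mem_span R' hR' (φ '' (I : Set F₁)) ?_ ((hI' x).1 hx)
    rintro _ ⟨f, hf, rfl⟩
    by_cases hf0 : f = 0
    · exact Or.inl (by rw [hf0, map_zero])
    · right
      rw [hφ]
      exact csInf_le hbdd ⟨f, hf, hf0, rfl⟩
  have hbdd' : BddBelow (ordSet c' w (I' : Set F₂)) := by
    refine ⟨sInf (ordSet c w (I : Set F₁)), ?_⟩
    rintro n ⟨f, hf, hf0, rfl⟩
    exact (hge f hf).resolve_left hf0
  refine le_antisymm (csInf_le hbdd' (hsub hmem)) (le_csInf (hnon.mono hsub) ?_)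
  rintro n ⟨f, hf, hf0, rfl⟩
  exact (hge f hf).resolve_left hf0

/-- **Semilinear transport of the order set**: if `I' = τ(I)` and `c ∘ τ = g ∘ c`, the order sets of
`I'` at `g • w` and of `I` at `w` coincide. -/
theorem ordSet_image_eq (c : F₁ →+* F) (g : SemilinearAut K F) (τ : F₁ ≃+* F₁)
    (hτ : ∀ x, c (τ x) = g • c x) (w : Place K F) (I I' : Set F₁)
    (hI' : ∀ x, x ∈ I' ↔ ∃ y ∈ I, x = τ y) :
    ordSet c (g • w) I' = ordSet c w I := by
  ext n
  constructor
  · rintro ⟨f, hf, hf0, rfl⟩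
    obtain ⟨y, hy, rfl⟩ := (hI' f).1 hf
    refine ⟨y, hy, fun h => hf0 (by rw [h, map_zero]), ?_⟩
    exact (ord_smul_of_comm c g (τ : F₁ →+* F₁) hτ w y).symm
  · rintro ⟨y, hy, hy0, rfl⟩
    refine ⟨τ y, (hI' _).2 ⟨y, hy, rfl⟩, (map_ne_zero (τ : F₁ →+* F₁)).2 hy0, ?_⟩
    exact ord_smul_of_comm c g (τ : F₁ →+* F₁) hτ w y

end Generic

section Coeff

open ModularCurve HahnSeries

/-- Coefficientwise maps commute when the coefficient maps do. -/
theorem coeffMap_comm {R S : Type*} [CommRing R] [CommRing S] (i : R →+* S) (τ : R →+* R)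
    (σ : S →+* S) (h : ∀ a, σ (i a) = i (τ a)) (x : LaurentSeries R) :
    coeffMap σ (coeffMap i x) = coeffMap i (coeffMap τ x) := by
  rw [coeffMap_coeffMap, coeffMap_coeffMap]
  exact coeffMap_congr (RingHom.ext fun a => h a) x

end Coeff

end Fermat.Agent.T1.Dict67
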