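import Mathlib
import Fermat.Agent.T1.Dict59.Iface
import Fermat.Agent.T1.Dict67.Core

/-!
# T1A / G7 DICT, helper67: (D-BC) base change of line pairs does not change the divisor

`clsBaseChange M : Dict59.ClsBaseChange M`.
-/

set_option autoImplicit false
set_option linter.unusedSectionVars false
set_option synthInstance.maxHeartbeats 400000
set_option maxHeartbeats 1000000

noncomputable section

open HahnSeries AlgebraicCurve ModularCurve IntermediateField
open Fermat.Agent.RED.Interface4 Fermat.Agent.T1.Dict59

namespace Fermat.Agent.T1.Dict67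

variable (M : ℕ)

theorem cL_cLL {L L' : IntermediateField ℚ Qbar} (h : L ≤ L') (x : FK M L) :
    cL M L' (cLL M h x) = cL M L x := by
  apply Subtype.ext
  show coeffMap (algebraMap L' Qbar)
      (coeffMap (IntermediateField.inclusion h).toRingHom (x : LaurentSeries L))
    = coeffMap (algebraMap L Qbar) (x : LaurentSeries L)
  rw [coeffMap_coeffMap]
  exact coeffMap_congr (RingHom.ext fun a => rfl) _

theorem cL_algebraMap (L : IntermediateField ℚ Qbar) (a : L) :
    cL M L (algebraMap L (FK M L) a) = algebraMap Qbar (Fbar M) (algebraMap L Qbar a) := by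
  apply Subtype.ext
  exact Fermat.Agent.RED.DESC.CoeffDescent1.coeffMap_algebraMap_of_ringHom (algebraMap L Qbar) a

theorem cL_const_mem (L : IntermediateField ℚ Qbar) (w : Place Qbar (Fbar M)) (a : L) :
    cL M L (algebraMap L (FK M L) a) ∈ w.toValuationSubring := by
  rw [cL_algebraMap]
  exact w.algebraMap_mem' _

/-- The chart `C0 t` over `L` is mapped into `O_w` as soon as `t` is regular at `w`. -/
theorem cL_mem_of_mem_C0 (L : IntermediateField ℚ Qbar) (w : Place Qbar (Fbar M)) (t : FK M L)
    (ht : cL M L t ∈ w.toValuationSubring) {x : FK M L} (hx : x ∈ C0 (K := L) t) :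
    cL M L x ∈ w.toValuationSubring :=
  map_mem_of_mem_integralClosure (cL M L) w.toValuationSubring (cL_const_mem M L w) t ht hx

theorem ordAt_eq_sInf_ordSet {L : IntermediateField ℚ Qbar} (w : Place Qbar (Fbar M))
    (I : Set (FK M L)) : LinePair.ordAt w I = sInf (ordSet (cL M L) w I) := rfl

/-- The divisor function is unchanged by base change. -/
theorem divFun_baseChange {L L' : IntermediateField ℚ Qbar} (h : L ≤ L') (t : FK M L)
    (P : LinePair L t) (P' : LinePair L' (cLL M h t))
    (hPP' : LinePair.IsBaseChangeAlong (cLL M h) P P') (w : Place Qbar (Fbar M)) :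
    LinePair.divFun P' w = LinePair.divFun P w := by
  unfold LinePair.divFun
  rw [cL_cLL]
  split_ifs with ht
  · congr 1
    rw [ordAt_eq_sInf_ordSet, ordAt_eq_sInf_ordSet]
    exact sInf_ordSet_baseChange (cL M L) (cL M L') (cLL M h) (cL_cLL M h) w
      (C0 (K := L) t) (fun b hb => cL_mem_of_mem_C0 M L w t ht hb)
      (C0 (K := L') (cLL M h t))
      (fun b hb => cL_mem_of_mem_C0 M L' w _ (by rw [cL_cLL]; exact ht) hb)
      P.I0 P.fg0 P.ne0 P'.I0 hPP'.1
  · have ht1 : cL M L t⁻¹ ∈ w.toValuationSubring := by
      rw [map_inv₀]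
      exact (w.toValuationSubring.mem_or_inv_mem _).resolve_left ht
    have ht1' : cL M L' (cLL M h t)⁻¹ ∈ w.toValuationSubring := by
      rw [map_inv₀, cL_cLL, ← map_inv₀]
      exact ht1
    congr 1
    rw [ordAt_eq_sInf_ordSet, ordAt_eq_sInf_ordSet]
    exact sInf_ordSet_baseChange (cL M L) (cL M L') (cLL M h) (cL_cLL M h) w
      (C1 (K := L) t) (fun b hb => cL_mem_of_mem_C0 M L w t⁻¹ ht1 hb)
      (C1 (K := L') (cLL M h t))
      (fun b hb => cL_mem_of_mem_C0 M L' w _ ht1' hb)
      P.I1 P.fg1 P.ne1 P'.I1 hPP'.2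

open Classical in
theorem divL_congr {L L' : IntermediateField ℚ Qbar} {t : FK M L} {t' : FK M L'}
    (P : LinePair L t) (P' : LinePair L' t') (h : LinePair.divFun P' = LinePair.divFun P) :
    LinePair.divL P' = LinePair.divL P := by
  unfold LinePair.divL
  have key : ∀ (f f' : Place Qbar (Fbar M) → ℤ), f' = f →
      (if h : (Function.support f').Finite then Finsupp.ofSupportFinite f' h else 0)
        = (if h : (Function.support f).Finite then Finsupp.ofSupportFinite f h else 0) := by
    rintro f _ rfl
    rfl
  exact key _ _ h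

/-- **(D-BC)** -/
theorem clsBaseChange : ClsBaseChange M := by
  intro L L' h t _ P P' hPP'
  exact divL_congr M P P' (funext fun w => divFun_baseChange M h t P P' hPP' w)

end Fermat.Agent.T1.Dict67
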