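import Mathlib
import Fermat.Agent.T1.Dict59.Iface2
import Fermat.Agent.T1.Dict67.CoeffFixGen
import Fermat.Agent.T1.Dict67.BaseChange

/-!
# T1A / G7 DICT, helper67: (D-FIXbar) and (D-FIX)

`coeffFixBar M : Dict59.CoeffFixBar M`, `coeffFix M : Dict59.CoeffFix M`: an element of `ℚ̄·F_M`
(resp. `L'·F_M`) all of whose coefficients lie in `L` lies in `L·F_M`.
-/

set_option autoImplicit false
set_option linter.unusedSectionVars false
set_option synthInstance.maxHeartbeats 400000
set_option maxHeartbeats 1000000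

noncomputable section

open HahnSeries AlgebraicCurve ModularCurve IntermediateField
open Fermat.Agent.RED.Interface4 Fermat.Agent.T1.Dict59

namespace Fermat.Agent.T1.Dict67

variable (M : ℕ)

/-- **(D-FIXbar)** -/
theorem coeffFixBar : CoeffFixBar M := by
  intro L y hy
  have hQ : Algebra.IsAlgebraic ℚ Qbar := AlgebraicClosure.isAlgebraic ℚ
  have : Algebra.IsAlgebraic L Qbar := Algebra.IsAlgebraic.tower_top (K := ℚ) L
  obtain ⟨z, hz, hzy⟩ := exists_descent_of_coeff_mem (K := L) (K' := Qbar)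
    (modularFunctionFieldFull M) (y := (y : LaurentSeries Qbar)) y.2
    (fun k => ⟨⟨_, hy k⟩, rfl⟩)
  exact ⟨⟨z, hz⟩, Subtype.ext hzy⟩

/-- **(D-FIX)** -/
theorem coeffFix : CoeffFix M := by
  intro L L' h y hy
  obtain ⟨z, hz⟩ := coeffFixBar M L (cL M L' y) (fun k => by
    obtain ⟨a, ha⟩ := hy k
    show algebraMap L' Qbar ((y : LaurentSeries L').coeff k) ∈ L
    rw [show algebraMap L' Qbar ((y : LaurentSeries L').coeff k) = (a : Qbar) from ha]
    exact a.2)
  refine ⟨z, cL_injective M L' ?_⟩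
  rw [cL_cLL, hz]

end Fermat.Agent.T1.Dict67
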