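import Mathlib
import Fermat.Agent.T1.Dict59.Iface
import Fermat.Agent.T1.Dict67.Core
import Fermat.Agent.T1.Dict67.BaseChange

/-!
# T1A / G7 DICT, helper67: (D-GAL) Galois equivariance of the class of a line pair

`clsEquivariant M : Dict59.ClsEquivariant M`.
-/

set_option autoImplicit false
set_option linter.unusedSectionVars false
set_option synthInstance.maxHeartbeats 400000
set_option maxHeartbeats 1000000

noncomputable section

open HahnSeries AlgebraicCurve ModularCurve IntermediateField
open Fermat.Agent.RED.Interface4 Fermat.Agent.T1.Dict59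

namespace Fermat.Agent.T1.Dict67

variable (M : ℕ)

/-- The semilinear automorphism of `ℚ̄·F_M` attached to `σ ∈ Gal(ℚ̄/ℚ)`. -/
abbrev gal (σ : GQ) : SemilinearAut Qbar (Fbar M) :=
  arithmeticGalois (modularFunctionFieldFull M) σ

/-- `cL` intertwines the arithmetic action of `σ|_L` and of `σ`. -/
theorem cL_arith (L : IntermediateField ℚ Qbar) [Normal ℚ L] (σ : GQ) (x : FK M L) :
    cL M L (arith M L (σ.restrictNormal L) x) = gal M σ • cL M L x := by
  apply Subtype.ext
  show coeffMap (algebraMap L Qbar)
      (coeffMap ((σ.restrictNormal L : L ≃ₐ[ℚ] L) : L →+* L) (x : LaurentSeries L))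
    = coeffMap (σ : Qbar →+* Qbar) (coeffMap (algebraMap L Qbar) (x : LaurentSeries L))
  exact (coeffMap_comm (algebraMap L Qbar) _ _
    (fun a => (AlgEquiv.restrictNormal_commutes σ L a).symm) _).symm

/-- The divisor function of the Galois image at `σ w` is the divisor function at `w`. -/
theorem divFun_galois (L : IntermediateField ℚ Qbar) [Normal ℚ L] (t : FK M L)
    (ht : ∀ τ : L ≃ₐ[ℚ] L, arith M L τ t = t) (σ : GQ) (P P' : LinePair L t)
    (hPP' : LinePair.IsGalois (σ.restrictNormal L) P P') (w : Place Qbar (Fbar M)) :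
    LinePair.divFun P' (gal M σ • w) = LinePair.divFun P w := by
  unfold LinePair.divFun
  have hmem : cL M L t ∈ (gal M σ • w).toValuationSubring ↔ cL M L t ∈ w.toValuationSubring := by
    have h1 : cL M L t = gal M σ • cL M L t := by
      rw [← cL_arith, ht]
    conv_lhs => rw [h1]
    exact mem_smul_place_iff (gal M σ) w (cL M L t)
  by_cases h : cL M L t ∈ w.toValuationSubring
  · rw [if_pos h, if_pos (hmem.2 h)]
    congr 1
    rw [ordAt_eq_sInf_ordSet, ordAt_eq_sInf_ordSet]
    congr 1
    exact ordSet_image_eq (cL M L) (gal M σ) (arith M L (σ.restrictNormal L)) (cL_arith M L σ) w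
      _ _ (fun x => hPP'.1 x)
  · rw [if_neg h, if_neg (fun h' => h (hmem.1 h'))]
    congr 1
    rw [ordAt_eq_sInf_ordSet, ordAt_eq_sInf_ordSet]
    congr 1
    exact ordSet_image_eq (cL M L) (gal M σ) (arith M L (σ.restrictNormal L)) (cL_arith M L σ) w
      _ _ (fun x => hPP'.2 x)

open Classical in
/-- The divisor of the Galois image is the Galois image of the divisor. -/
theorem divL_galois (L : IntermediateField ℚ Qbar) [Normal ℚ L] (t : FK M L)
    (ht : ∀ τ : L ≃ₐ[ℚ] L, arith M L τ t = t) (σ : GQ) (P P' : LinePair L t)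
    (hPP' : LinePair.IsGalois (σ.restrictNormal L) P P') :
    LinePair.divL P' = gal M σ • LinePair.divL P := by
  have hfun : ∀ w', LinePair.divFun P' w' = LinePair.divFun P ((gal M σ)⁻¹ • w') := by
    intro w'
    have := divFun_galois M L t ht σ P P' hPP' ((gal M σ)⁻¹ • w')
    rwa [smul_inv_smul] at this
  have hsupp : Function.support (LinePair.divFun P')
      = (fun w => gal M σ • w) '' Function.support (LinePair.divFun P) := by
    ext w'
    simp only [Function.mem_support, Set.mem_image]
    constructor
    · intro hw'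
      refine ⟨(gal M σ)⁻¹ • w', ?_, smul_inv_smul _ _⟩
      rwa [← hfun]
    · rintro ⟨w, hw, rfl⟩
      rwa [divFun_galois M L t ht σ P P' hPP' w]
  unfold LinePair.divL
  by_cases hfin : (Function.support (LinePair.divFun P)).Finite
  · have hfin' : (Function.support (LinePair.divFun P')).Finite := by
      rw [hsupp]
      exact hfin.image _
    rw [dif_pos hfin, dif_pos hfin']
    ext w'
    rw [SemilinearAut.divisor_smul_apply]
    show LinePair.divFun P' w' = LinePair.divFun P ((gal M σ)⁻¹ • w')
    exact hfun w'
  · have hfin' : ¬ (Function.support (LinePair.divFun P')).Finite := by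
      rw [hsupp]
      intro h'
      exact hfin (h'.of_finite_image ((MulAction.injective (gal M σ)).injOn))
    rw [dif_neg hfin, dif_neg hfin', smul_zero]

/-- **(D-GAL)** -/
theorem clsEquivariant : ClsEquivariant M := by
  intro L _ t _ ht σ P P' hPP'
  have hdiv := divL_galois M L t ht σ P P' hPP'
  have hdeg : LinePair.deg P' = LinePair.deg P := by
    unfold LinePair.deg
    rw [hdiv, SemilinearAut.degree_smul]
  refine ⟨hdeg, ?_⟩
  unfold LinePair.cls
  by_cases h0 : LinePair.deg P = 0
  · rw [dif_pos h0, dif_pos (hdeg.trans h0)]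
    rw [galois_smul_pic0_def, SemilinearAut.pic0_smul_mk]
    congr 1
    exact Subtype.ext hdiv
  · rw [dif_neg h0, dif_neg (fun h => h0 (hdeg ▸ h))]
    exact (smul_zero (A := JZero M) σ).symm

end Fermat.Agent.T1.Dict67
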