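import Mathlib
import Fermat.Agent.T1.Dict59.Iface2
import Fermat.Agent.T1.Dict67.Core
import Fermat.Agent.T1.Dict67.BaseChange
import Fermat.Agent.T1.Dict67.Galois
import Fermat.Agent.T1.Dict67.CoeffFix
import Fermat.Agent.RED.TOP.FbarFacts20
import Fermat.Agent.RR.LHypGen
import Fermat.Agent.Lib.FrobeniusExists

/-!
# T1A / G7 DICT, helper67: (D-GDESC) Galois descent of the scaling function

If two line pairs over `L` have divisors differing by the divisor of a function `g` of `ℚ̄·F_M`, then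
`g` is, up to a constant of `ℚ̄`, a function of `L·F_M` (`exists_descent_fun`).

Proof: the divisors of line pairs over `L` are invariant under `Gal(ℚ̄/L)`, so `σ g / g` has no zeros
and no poles, hence is a constant `c_σ`; comparing coefficients, `a⁻¹ g` (`a` the leading coefficient
of `g`) has all its coefficients fixed by `Gal(ℚ̄/L)`, hence in `L`; conclude by `coeffFixBar`.
-/

set_option autoImplicit false
set_option linter.unusedSectionVars false
set_option linter.unusedVariables false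
set_option synthInstance.maxHeartbeats 400000
set_option maxHeartbeats 1000000

noncomputable section

open HahnSeries AlgebraicCurve ModularCurve IntermediateField
open Fermat.Agent.RED.Interface4 Fermat.Agent.T1.Dict59

namespace Fermat.Agent.T1.Dict67

variable (M : ℕ)

/-- An element of `ℚ̄` fixed by `Gal(ℚ̄/L)` lies in `L`. -/
theorem mem_of_fixed67 (L : IntermediateField ℚ Qbar) (x : Qbar)
    (h : ∀ σ : GQ, (∀ a ∈ L, σ a = a) → σ x = x) : x ∈ L := by
  have := Fermat.Agent.Lib.FrobeniusExists.isGalois_Qbar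
  have h1 := InfiniteGalois.fixedField_fixingSubgroup (k := ℚ) (K := Qbar) L
  rw [← h1]
  intro σ
  exact h σ.1 (fun a ha => σ.2 ⟨a, ha⟩)

/-- Functions of `L·F_M` are fixed by `Gal(ℚ̄/L)`. -/
theorem gal_smul_cL (L : IntermediateField ℚ Qbar) (σ : GQ) (hσ : ∀ a ∈ L, σ a = a)
    (x : FK M L) : gal M σ • cL M L x = cL M L x := by
  apply Subtype.ext
  rw [coe_arithmeticGalois_smul, coe_cL, coeffMap_coeffMap]
  exact coeffMap_congr (RingHom.ext fun a => hσ _ a.2) _

/-- The divisor function of a line pair over `L` is `Gal(ℚ̄/L)`-invariant. -/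
theorem divFun_fixed (L : IntermediateField ℚ Qbar) (t : FK M L) (σ : GQ)
    (hσ : ∀ a ∈ L, σ a = a) (P : LinePair L t) (w : Place Qbar (Fbar M)) :
    LinePair.divFun P (gal M σ • w) = LinePair.divFun P w := by
  unfold LinePair.divFun
  have hmem : cL M L t ∈ (gal M σ • w).toValuationSubring ↔ cL M L t ∈ w.toValuationSubring := by
    have h1 : cL M L t = gal M σ • cL M L t := (gal_smul_cL M L σ hσ t).symm
    conv_lhs => rw [h1]
    exact mem_smul_place_iff (gal M σ) w (cL M L t)
  have key : ∀ I : Set (FK M L), LinePair.ordAt (gal M σ • w) I = LinePair.ordAt w I := by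
    intro I
    rw [ordAt_eq_sInf_ordSet, ordAt_eq_sInf_ordSet]
    congr 1
    exact ordSet_image_eq (cL M L) (gal M σ) (RingEquiv.refl _)
      (fun x => (gal_smul_cL M L σ hσ x).symm) w I I
      (fun x => ⟨fun hx => ⟨x, hx, rfl⟩, by rintro ⟨y, hy, rfl⟩; exact hy⟩)
  by_cases h : cL M L t ∈ w.toValuationSubring
  · rw [if_pos h, if_pos (hmem.2 h), key]
  · rw [if_neg h, if_neg (fun h' => h (hmem.1 h')), key]

open Classical in
/-- The divisor of a line pair over `L` is `Gal(ℚ̄/L)`-invariant. -/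
theorem divL_fixed (L : IntermediateField ℚ Qbar) (t : FK M L) (σ : GQ)
    (hσ : ∀ a ∈ L, σ a = a) (P : LinePair L t) (w : Place Qbar (Fbar M)) :
    LinePair.divL P (gal M σ • w) = LinePair.divL P w := by
  unfold LinePair.divL
  by_cases hfin : (Function.support (LinePair.divFun P)).Finite
  · rw [dif_pos hfin]
    exact divFun_fixed M L t σ hσ P w
  · rw [dif_neg hfin]
    rfl

/-- **(D-GDESC)** -/
theorem exists_descent_fun [NeZero M] (L : IntermediateField ℚ Qbar) (t : FK M L)
    (ht : NonConst M t) (P P' : LinePair L t) (g : Fbar M) (hg : g ≠ 0)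
    (h : ∀ w : Place Qbar (Fbar M), LinePair.divL P' w = LinePair.divL P w - w.ord g) :
    ∃ (c : Qbar) (f : FK M L), c ≠ 0 ∧ f ≠ 0 ∧ g = algebraMap Qbar (Fbar M) c * cL M L f := by
  have HL : Fermat.Agent.RR.LSpace.LHyp Qbar (Fbar M) :=
    Fermat.Agent.RR.LHypGen.lHyp_of_isGen (Fermat.Agent.RED.TOP.FbarFacts20.isGen_j M)
  -- the orders of `g` are Galois invariant
  have hord : ∀ σ : GQ, (∀ a ∈ L, σ a = a) → ∀ w : Place Qbar (Fbar M),
      (gal M σ • w).ord g = w.ord g := by
    intro σ hσ w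
    have h1 := h (gal M σ • w)
    have h2 := h w
    rw [divL_fixed M L t σ hσ P' w, divL_fixed M L t σ hσ P w] at h1
    omega
  -- `σ g = c_σ g`
  have hconst : ∀ σ : GQ, (∀ a ∈ L, σ a = a) →
      ∃ c : Qbar, gal M σ • g = algebraMap Qbar (Fbar M) c * g := by
    intro σ hσ
    have hσg : gal M σ • g ≠ 0 := by
      intro h0
      apply hg
      have := congrArg (fun z => (gal M σ)⁻¹ • z) h0
      simpa using this
    have hu : ∀ w' : Place Qbar (Fbar M), 0 ≤ w'.ord ((gal M σ • g) * g⁻¹) := by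
      intro w'
      obtain ⟨w, rfl⟩ : ∃ w, gal M σ • w = w' := ⟨(gal M σ)⁻¹ • w', smul_inv_smul _ _⟩
      rw [Place.ord_mul _ hσg (inv_ne_zero hg), Place.ord_inv, SemilinearAut.ord_smul,
        hord σ hσ w]
      omega
    obtain ⟨c, hc⟩ := Fermat.Agent.RR.LSpace.eq_algebraMap_of_forall_ord_nonneg HL hu
    refine ⟨c, ?_⟩
    rw [← hc, mul_assoc, inv_mul_cancel₀ hg, mul_one]
  -- coefficientwise form
  have hcoef : ∀ σ : GQ, (∀ a ∈ L, σ a = a) → ∃ c : Qbar, ∀ j : ℤ,
      σ ((g : LaurentSeries Qbar).coeff j) = c * (g : LaurentSeries Qbar).coeff j := by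
    intro σ hσ
    obtain ⟨c, hc⟩ := hconst σ hσ
    refine ⟨c, fun j => ?_⟩
    have h1 := congrArg (fun z : Fbar M => (z : LaurentSeries Qbar).coeff j) hc
    have h2 : ((algebraMap Qbar (Fbar M) c * g : Fbar M) : LaurentSeries Qbar)
        = HahnSeries.single 0 c * (g : LaurentSeries Qbar) := by
      show algebraMap Qbar (LaurentSeries Qbar) c * (g : LaurentSeries Qbar) = _
      rw [algebraMap_laurentSeries_eq_single]
    simp only [coe_arithmeticGalois_smul, coeffMap_coeff] at h1
    refine h1.trans ?_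
    rw [h2, HahnSeries.coeff_single_zero_mul]
  -- the leading coefficient
  have hgs0 : (g : LaurentSeries Qbar) ≠ 0 := fun h0 => hg (Subtype.ext h0)
  obtain ⟨a, ha⟩ : ∃ a : Qbar, a = (g : LaurentSeries Qbar).coeff (g : LaurentSeries Qbar).order :=
    ⟨_, rfl⟩
  have ha0 : a ≠ 0 := by
    rw [ha]
    exact fun h0 => hgs0 (HahnSeries.coeff_order_eq_zero.1 h0)
  -- the coefficients of `a⁻¹ g` lie in `L`
  have hfix : ∀ k : ℤ, a⁻¹ * (g : LaurentSeries Qbar).coeff k ∈ L := by
    intro k
    refine mem_of_fixed67 L _ (fun σ hσ => ?_)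
    obtain ⟨c, hc⟩ := hcoef σ hσ
    have hca : σ a = c * a := by rw [ha]; exact hc _
    have hc0 : c ≠ 0 := by
      rintro rfl
      rw [zero_mul] at hca
      exact ha0 ((map_eq_zero σ).1 hca)
    rw [map_mul, map_inv₀, hca, hc k]
    field_simp
  -- descend `a⁻¹ g`
  obtain ⟨f, hf⟩ := coeffFixBar M L (algebraMap Qbar (Fbar M) a⁻¹ * g) (fun k => by
    have h2 : ((algebraMap Qbar (Fbar M) a⁻¹ * g : Fbar M) : LaurentSeries Qbar)
        = HahnSeries.single 0 a⁻¹ * (g : LaurentSeries Qbar) := by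
      show algebraMap Qbar (LaurentSeries Qbar) a⁻¹ * (g : LaurentSeries Qbar) = _
      rw [algebraMap_laurentSeries_eq_single]
    rw [h2, HahnSeries.coeff_single_zero_mul]
    exact hfix k)
  refine ⟨a, f, ha0, ?_, ?_⟩
  · rintro rfl
    rw [map_zero] at hf
    have h3 : algebraMap Qbar (Fbar M) a⁻¹ ≠ 0 :=
      (map_ne_zero (algebraMap Qbar (Fbar M))).2 (inv_ne_zero ha0)
    exact (mul_ne_zero h3 hg) hf.symm
  · rw [hf, ← mul_assoc, ← map_mul, mul_inv_cancel₀ ha0, map_one, one_mul]

end Fermat.Agent.T1.Dict67
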