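import Mathlib
import Fermat.Agent.T1.Dict59.Iface2
import Fermat.Agent.T1.Dict67.FunDescent
import Fermat.Agent.T1.Dict22.ChartDedekind
import Fermat.Agent.T1.Dict22.ChartSpan

/-!
# T1A / G7 DICT, helper67: (D-PT) the divisor of the ideal sheaf of a rational point

`divPt M : Dict59.DivPt M` (for `M ≠ 0`): if `w` is an `L`-rational place of `ℚ̄·F_M` and `P` is the
line pair of functions of the charts over `L` vanishing at `w`, then `divL P = -[w]`.

Ingredients: `Dict22.ChartSpan.chartSpan` (`C_0(ℚ̄) = ℚ̄·cL(C_0(L))`), `Dict22.ChartDedekind`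
(uniformisers and separating functions in the Dedekind chart over `ℚ̄`), values of `L`-functions at
`L`-rational places lie in `L` (`exists_value_mem`).
-/

set_option autoImplicit false
set_option linter.unusedSectionVars false
set_option linter.unusedVariables false
set_option synthInstance.maxHeartbeats 400000
set_option maxHeartbeats 1000000

noncomputable section

open HahnSeries AlgebraicCurve ModularCurve IntermediateField
open Fermat.Agent.RED.Interface4 Fermat.Agent.T1.Dict59

namespace Fermat.Agent.T1.Dict67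

open Fermat.Agent.X0.FF

/-! ### Generic: orders on a span over the constants -/

section GenericSpan

variable {K F : Type*} [Field K] [Field F] [Algebra K F]

theorem ordGE_id_of_mem_span (w : Place K F) (m : ℤ) (S : Set F)
    (hS : ∀ x ∈ S, x = 0 ∨ m ≤ w.ord x) {x : F} (hx : x ∈ Submodule.span K S) :
    x = 0 ∨ m ≤ w.ord x := by
  have key : OrdGE (RingHom.id F) w m x := by
    induction hx using Submodule.span_induction with
    | mem y hy => exact hS y hy
    | zero => exact ordGE_zero _ w m
    | add y z _ _ hy hz => exact hy.add hz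
    | smul c y _ hy =>
        rw [Algebra.smul_def]
        exact hy.mul_left (w.algebraMap_mem' c)
  exact key

theorem ordGE_id_sub (w : Place K F) (m : ℤ) {x y : F} (hx : x = 0 ∨ m ≤ w.ord x)
    (hy : y = 0 ∨ m ≤ w.ord y) : x - y = 0 ∨ m ≤ w.ord (x - y) := by
  have hy' : OrdGE (RingHom.id F) w m (-y) := by
    rcases hy with rfl | hy
    · exact Or.inl neg_zero
    · exact Or.inr (by rw [RingHom.id_apply, ord_neg]; exact hy)
  have hx' : OrdGE (RingHom.id F) w m x := hx
  have := hx'.add hy'
  rwa [← sub_eq_add_neg] at this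

end GenericSpan

variable (M : ℕ)

/-! ### The coordinate over `ℚ̄` -/

theorem coeff_zero_algebraMap_bar (c : Qbar) :
    ((algebraMap Qbar (Fbar M) c : Fbar M) : LaurentSeries Qbar).coeff 0 = c := by
  show (algebraMap Qbar (LaurentSeries Qbar) c).coeff 0 = c
  rw [algebraMap_laurentSeries_eq_single, HahnSeries.coeff_single_same]

/-- A non-constant function over `L` stays non-constant over `ℚ̄`. -/
theorem transcendental_cL (L : IntermediateField ℚ Qbar) (t : FK M L)
    (ht : Transcendental L t) : Transcendental Qbar (cL M L t) := by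
  intro halg
  obtain ⟨c, hc⟩ := eq_algebraMap_of_isAlgebraic halg
  have h0 : c = algebraMap L Qbar ((t : LaurentSeries L).coeff 0) := by
    have h1 := congrArg (fun z : Fbar M => (z : LaurentSeries Qbar).coeff 0) hc
    simp only [coe_cL, coeffMap_coeff, coeff_zero_algebraMap_bar] at h1
    exact h1.symm
  apply ht
  have h2 : t = algebraMap L (FK M L) ((t : LaurentSeries L).coeff 0) := by
    apply cL_injective M L
    rw [cL_algebraMap, ← h0, hc]
  rw [h2]
  exact isAlgebraic_algebraMap _

theorem isGen_cL [NeZero M] (L : IntermediateField ℚ Qbar) (t : FK M L)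
    (ht : Transcendental L t) : IsGen Qbar (cL M L t) :=
  (Fermat.Agent.RED.TOP.FbarFacts20.isGen_j M).of_transcendental (transcendental_cL M L t ht)

theorem isCoord_inv (L : IntermediateField ℚ Qbar) (t : FK M L) (h : IsCoord M t) :
    IsCoord M t⁻¹ := by
  have h' : IsGen L t := h
  exact h'.of_transcendental (fun halg => h'.transcendental (IsAlgebraic.inv_iff.1 halg))

/-! ### Values at rational places -/

theorem lHyp_bar [NeZero M] : Fermat.Agent.RR.LSpace.LHyp Qbar (Fbar M) :=
  Fermat.Agent.RR.LHypGen.lHyp_of_isGen (Fermat.Agent.RED.TOP.FbarFacts20.isGen_j M)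

theorem gal_smul_algebraMap (σ : GQ) (c : Qbar) :
    gal M σ • algebraMap Qbar (Fbar M) c = algebraMap Qbar (Fbar M) (σ c) := by
  rw [SemilinearAut.smul_algebraMap]
  rfl

/-- The value of a function of `L·F_M` at an `L`-rational place lies in `L`. -/
theorem exists_value_mem [NeZero M] (L : IntermediateField ℚ Qbar) (w : Place Qbar (Fbar M))
    (hw : IsRatPlace L w) (y : FK M L) (hy : cL M L y ∈ w.toValuationSubring) :
    ∃ a : L, y = algebraMap L (FK M L) a ∨
      0 < w.ord (cL M L (y - algebraMap L (FK M L) a)) := by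
  obtain ⟨c, hc⟩ := (lHyp_bar M).residue w (cL M L y) hy
  have hcL : c ∈ L := by
    refine mem_of_fixed67 L c (fun σ hσ => ?_)
    have hwσ : gal M σ • w = w := hw σ hσ
    have hyσ := gal_smul_cL M L σ hσ y
    rcases hc with hc | hc
    · have h1 : algebraMap Qbar (Fbar M) (σ c) = algebraMap Qbar (Fbar M) c := by
        rw [← gal_smul_algebraMap, ← hc, hyσ]
      exact (algebraMap Qbar (Fbar M)).injective h1
    · have h1 : 0 < w.ord (cL M L y - algebraMap Qbar (Fbar M) (σ c)) := by
        have h2 := SemilinearAut.ord_smul (gal M σ) w (cL M L y - algebraMap Qbar (Fbar M) c)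
        rw [hwσ, smul_sub, hyσ, gal_smul_algebraMap] at h2
        rw [h2]
        exact hc
      by_contra hne
      have hd : algebraMap Qbar (Fbar M) (σ c - c) ≠ 0 :=
        (map_ne_zero (algebraMap Qbar (Fbar M))).2 (sub_ne_zero.2 hne)
      have hd' : (cL M L y - algebraMap Qbar (Fbar M) c)
          - (cL M L y - algebraMap Qbar (Fbar M) (σ c)) = algebraMap Qbar (Fbar M) (σ c - c) := by
        rw [map_sub]
        ring
      have h3 := ord_sub_ge w (f := cL M L y - algebraMap Qbar (Fbar M) c)
        (g := cL M L y - algebraMap Qbar (Fbar M) (σ c)) (by rw [hd']; exact hd)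
      rw [hd', ord_algebraMap] at h3
      have := le_min hc.le h1.le
      have h4 : 0 < min (w.ord (cL M L y - algebraMap Qbar (Fbar M) c))
          (w.ord (cL M L y - algebraMap Qbar (Fbar M) (σ c))) := lt_min hc h1
      omega
  refine ⟨⟨c, hcL⟩, ?_⟩
  have hca : cL M L (algebraMap L (FK M L) (⟨c, hcL⟩ : L)) = algebraMap Qbar (Fbar M) c :=
    cL_algebraMap M L _
  rcases hc with hc | hc
  · left
    apply cL_injective M L
    rw [hca, hc]
  · right
    rw [map_sub, hca]
    exact hc

/-! ### The ideal of a rational point in the chart -/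

/-- The functions of the chart `C0 t` over `L` vanishing at `w`. -/
def ptIdeal (L : IntermediateField ℚ Qbar) (t : FK M L) (w : Place Qbar (Fbar M)) :
    Set (FK M L) :=
  {y | y ∈ C0 (K := L) t ∧ (y = 0 ∨ 0 < w.ord (cL M L y))}

/-- **Representation**: a function of the chart over `ℚ̄` vanishing at the rational place `w` is a
`ℚ̄`-combination of functions of the chart over `L` vanishing at `w`. -/
theorem mem_span_ptIdeal [NeZero M] (L : IntermediateField ℚ Qbar) (t : FK M L)
    (hco : IsCoord M t) (w : Place Qbar (Fbar M)) (hw : IsRatPlace L w)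
    (ht : cL M L t ∈ w.toValuationSubring) (b : Fbar M)
    (hb : b ∈ C0 (K := Qbar) (cL M L t)) (hb0 : b = 0 ∨ 0 < w.ord b) :
    b ∈ Submodule.span Qbar (cL M L '' ptIdeal M L t w) := by
  have h1 := Fermat.Agent.T1.Dict22.ChartSpan.chartSpan M L t hco b hb
  -- every element of the chart is (element vanishing at `w`) + constant
  have hle : Submodule.span Qbar (cL M L '' (C0 (K := L) t : Set (FK M L)))
      ≤ Submodule.span Qbar (cL M L '' ptIdeal M L t w) ⊔ Submodule.span Qbar {(1 : Fbar M)} := by
    rw [Submodule.span_le]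
    rintro _ ⟨y, hy, rfl⟩
    have hyw : cL M L y ∈ w.toValuationSubring := cL_mem_of_mem_C0 M L w t ht hy
    obtain ⟨a, ha⟩ := exists_value_mem M L w hw y hyw
    have hdecomp : cL M L y = cL M L (y - algebraMap L (FK M L) a)
        + (algebraMap L Qbar a) • (1 : Fbar M) := by
      rw [map_sub, cL_algebraMap, Algebra.smul_def, mul_one]
      ring
    rw [SetLike.mem_coe, hdecomp]
    refine Submodule.add_mem_sup (Submodule.subset_span ⟨_, ⟨?_, ?_⟩, rfl⟩)
      (Submodule.smul_mem _ _ (Submodule.subset_span rfl))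
    · exact sub_mem hy ((C0 (K := L) t).algebraMap_mem a)
    · rcases ha with ha | ha
      · left
        rw [ha, sub_self]
      · exact Or.inr ha
  obtain ⟨n, hn, z, hz, hnz⟩ := Submodule.mem_sup.1 (hle h1)
  obtain ⟨c, rfl⟩ := Submodule.mem_span_singleton.1 hz
  -- `n` vanishes at `w`
  have hn1 : n = 0 ∨ 1 ≤ w.ord n := by
    refine ordGE_id_of_mem_span w 1 _ ?_ hn
    rintro _ ⟨y, ⟨_, hy⟩, rfl⟩
    rcases hy with rfl | hy
    · exact Or.inl (map_zero _)
    · exact Or.inr hy
  have hb1 : b = 0 ∨ 1 ≤ w.ord b := hb0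
  have hc0 : c = 0 := by
    by_contra hc
    have h2 := ordGE_id_sub w 1 hb1 hn1
    have h3 : b - n = algebraMap Qbar (Fbar M) c := by
      rw [← hnz, add_sub_cancel_left, Algebra.smul_def, mul_one]
    rw [h3, ord_algebraMap] at h2
    rcases h2 with h2 | h2
    · exact hc ((map_eq_zero (algebraMap Qbar (Fbar M))).1 h2)
    · omega
  rw [← hnz, hc0, zero_smul, add_zero]
  exact hn

/-- A function of the chart over `L` with a simple zero at the rational place `w`. -/
theorem exists_ptIdeal_ord_eq_one [NeZero M] (L : IntermediateField ℚ Qbar) (t : FK M L)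
    (hco : IsCoord M t) (w : Place Qbar (Fbar M)) (hw : IsRatPlace L w)
    (ht : cL M L t ∈ w.toValuationSubring) :
    ∃ y ∈ ptIdeal M L t w, y ≠ 0 ∧ w.ord (cL M L y) = 1 := by
  have hs : IsGen Qbar (cL M L t) := isGen_cL M L t (show IsGen L t from hco).transcendental
  obtain ⟨b, hbint, hb1⟩ := Fermat.Agent.T1.Dict22.ChartDedekind.exists_ord_eq_one hs w ht
  have hR := mem_span_ptIdeal M L t hco w hw ht b hbint (Or.inr (by omega))
  by_contra hcon
  push Not at hcon
  have h2 : b = 0 ∨ 2 ≤ w.ord b := by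
    refine ordGE_id_of_mem_span w 2 _ ?_ hR
    rintro _ ⟨y, hy, rfl⟩
    by_cases hy0 : y = 0
    · exact Or.inl (by rw [hy0, map_zero])
    · right
      have h3 := hcon y hy hy0
      have h4 := hy.2.resolve_left hy0
      omega
  rcases h2 with rfl | h2
  · rw [Place.ord_zero] at hb1
    omega
  · omega

/-- A function of the chart over `L` vanishing at the rational place `w` and not at `w' ≠ w`. -/
theorem exists_ptIdeal_sep [NeZero M] (L : IntermediateField ℚ Qbar) (t : FK M L)
    (hco : IsCoord M t) (w : Place Qbar (Fbar M)) (hw : IsRatPlace L w)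
    (ht : cL M L t ∈ w.toValuationSubring) (w' : Place Qbar (Fbar M))
    (ht' : cL M L t ∈ w'.toValuationSubring) (hne : w ≠ w') :
    ∃ y ∈ ptIdeal M L t w, y ≠ 0 ∧ w'.ord (cL M L y) = 0 := by
  have hs : IsGen Qbar (cL M L t) := isGen_cL M L t (show IsGen L t from hco).transcendental
  obtain ⟨b, hbint, hbw, hbw'⟩ :=
    Fermat.Agent.T1.Dict22.ChartDedekind.exists_pos_ord_zero hs w w' ht ht' hne
  have hR := mem_span_ptIdeal M L t hco w hw ht b hbint (Or.inr hbw)
  by_contra hcon
  push Not at hcon
  have h2 : b = 0 ∨ 1 ≤ w'.ord b := by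
    refine ordGE_id_of_mem_span w' 1 _ ?_ hR
    rintro _ ⟨y, hy, rfl⟩
    by_cases hy0 : y = 0
    · exact Or.inl (by rw [hy0, map_zero])
    · right
      have h3 := hcon y hy hy0
      have h4 : 0 ≤ w'.ord (cL M L y) :=
        ord_nonneg_of_mem w' (cL_mem_of_mem_C0 M L w' t ht' hy.1)
      omega
  rcases h2 with rfl | h2
  · rw [Place.ord_zero] at hbw
    omega
  · omega

/-! ### The order of the point ideal at every place of the chart -/

theorem ordAt_eq_of_isLeast {L : IntermediateField ℚ Qbar} (w' : Place Qbar (Fbar M))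
    (I : Set (FK M L)) (m : ℤ) (hm : ∃ f ∈ I, f ≠ 0 ∧ w'.ord (cL M L f) = m)
    (hle : ∀ f ∈ I, f ≠ 0 → m ≤ w'.ord (cL M L f)) : LinePair.ordAt w' I = m := by
  have h : IsLeast {n : ℤ | ∃ f ∈ I, f ≠ 0 ∧ w'.ord (cL M L f) = n} m := by
    refine ⟨hm, ?_⟩
    rintro n ⟨f, hf, hf0, rfl⟩
    exact hle f hf hf0
  exact h.csInf_eq

open Classical in
/-- The order at `w'` of the functions of a chart vanishing at `w` (all functions of the chart if `w`
is not in the chart). -/
theorem ordAt_ptChart [NeZero M] (L : IntermediateField ℚ Qbar) (t' : FK M L)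
    (hco : IsCoord M t') (w : Place Qbar (Fbar M)) (hw : IsRatPlace L w) (I : Set (FK M L))
    (hI : ∀ x, x ∈ I ↔ x ∈ C0 (K := L) t' ∧
      (cL M L t' ∈ w.toValuationSubring → x = 0 ∨ 0 < w.ord (cL M L x)))
    (w' : Place Qbar (Fbar M)) (hw' : cL M L t' ∈ w'.toValuationSubring) :
    LinePair.ordAt w' I = if w' = w then 1 else 0 := by
  have hnonneg : ∀ f ∈ I, 0 ≤ w'.ord (cL M L f) := fun f hf =>
    ord_nonneg_of_mem w' (cL_mem_of_mem_C0 M L w' t' hw' ((hI f).1 hf).1)
  by_cases hwt : cL M L t' ∈ w.toValuationSubring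
  · have hIpt : ∀ x, x ∈ I ↔ x ∈ ptIdeal M L t' w := fun x => by
      rw [hI x]
      exact ⟨fun h => ⟨h.1, h.2 hwt⟩, fun h => ⟨h.1, fun _ => h.2⟩⟩
    by_cases hww : w' = w
    · subst hww
      rw [if_pos rfl]
      obtain ⟨y, hy, hy0, hy1⟩ := exists_ptIdeal_ord_eq_one M L t' hco w' hw hwt
      refine ordAt_eq_of_isLeast M w' I 1 ⟨y, (hIpt y).2 hy, hy0, hy1⟩ ?_
      intro f hf hf0
      have := ((hIpt f).1 hf).2.resolve_left hf0
      omega
    · rw [if_neg hww]
      obtain ⟨y, hy, hy0, hy1⟩ :=
        exists_ptIdeal_sep M L t' hco w hw hwt w' hw' (fun h => hww h.symm)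
      exact ordAt_eq_of_isLeast M w' I 0 ⟨y, (hIpt y).2 hy, hy0, hy1⟩
        (fun f hf _ => hnonneg f hf)
  · have hww : w' ≠ w := fun h => hwt (h ▸ hw')
    rw [if_neg hww]
    refine ordAt_eq_of_isLeast M w' I 0 ⟨1, (hI 1).2 ⟨one_mem _, fun h => (hwt h).elim⟩,
      one_ne_zero, by rw [map_one, Place.ord_one]⟩ (fun f hf _ => hnonneg f hf)

open Classical in
/-- The divisor function of the line pair of the rational point `w`. -/
theorem divFun_ptPair [NeZero M] (L : IntermediateField ℚ Qbar) (t : FK M L) (hco : IsCoord M t)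
    (w : Place Qbar (Fbar M)) (hw : IsRatPlace L w) (P : LinePair L t) (hP : IsPtPair w P)
    (w' : Place Qbar (Fbar M)) : LinePair.divFun P w' = if w' = w then -1 else 0 := by
  unfold LinePair.divFun
  by_cases h : cL M L t ∈ w'.toValuationSubring
  · rw [if_pos h, ordAt_ptChart M L t hco w hw (P.I0 : Set (FK M L)) (fun x => hP.1 x) w' h]
    split_ifs <;> simp
  · have h' : cL M L t⁻¹ ∈ w'.toValuationSubring := by
      rw [map_inv₀]
      exact (w'.toValuationSubring.mem_or_inv_mem _).resolve_left h
    rw [if_neg h, ordAt_ptChart M L t⁻¹ (isCoord_inv M L t hco) w hw (P.I1 : Set (FK M L))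
      (fun x => hP.2 x) w' h']
    split_ifs <;> simp

/-- **(D-PT)** -/
theorem divPt [NeZero M] : DivPt M := by
  classical
  intro L t hco w hw P hP
  have hfun : LinePair.divFun P = fun w' => if w' = w then -1 else 0 :=
    funext fun w' => divFun_ptPair M L t hco w hw P hP w'
  have hsupp : (Function.support (LinePair.divFun P)).Finite := by
    refine (Set.finite_singleton w).subset ?_
    intro w' hw'
    rw [Function.mem_support, hfun] at hw'
    by_contra hne
    exact hw' (if_neg hne)
  unfold LinePair.divL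
  rw [dif_pos hsupp]
  ext w'
  rw [Finsupp.ofSupportFinite_coe, hfun, Finsupp.neg_apply, Finsupp.single_apply]
  show (if w' = w then (-1 : ℤ) else 0) = -if w = w' then 1 else 0
  by_cases hww : w' = w
  · rw [if_pos hww, if_pos hww.symm]
  · rw [if_neg hww, if_neg (fun h => hww h.symm), neg_zero]

end Fermat.Agent.T1.Dict67
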