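import Mathlib
import Fermat.Agent.T1.Dict59.Iface2
import Fermat.Agent.T1.Dict67.DivPt
import Fermat.Agent.ES.RED.PlaceValue13

/-!
# T1A / G7 DICT, helper67: the `L`-point of an `L`-rational place

For an `L`-rational place `w` of `ℚ̄·F_M` and a ring homomorphism `φ : B → L·F_M` whose image is
regular at `w` (e.g. `B` a chart of the model and `φ` its identification with `C0 t ⊂ L·F_M`), the
evaluation at `w` is a ring homomorphism `q : B → L` (`exists_point_hom`), characterised by
`φ b ≡ q b mod 𝔪_w` (`value_unique`).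
-/

set_option autoImplicit false
set_option linter.unusedSectionVars false
set_option linter.unusedVariables false
set_option synthInstance.maxHeartbeats 400000
set_option maxHeartbeats 1000000

noncomputable section

open HahnSeries AlgebraicCurve ModularCurve IntermediateField
open Fermat.Agent.RED.Interface4 Fermat.Agent.T1.Dict59

namespace Fermat.Agent.T1.Dict67

open Fermat.Agent.X0.FF

variable (M : ℕ) (L : IntermediateField ℚ Qbar)

/-- The congruence `x ≡ a mod 𝔪_w` for `x ∈ L·F_M`, `a ∈ L`. -/
def ValAt (w : Place Qbar (Fbar M)) (x : FK M L) (a : L) : Prop :=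
  x = algebraMap L (FK M L) a ∨ 0 < w.ord (cL M L (x - algebraMap L (FK M L) a))

theorem valAt_iff (w : Place Qbar (Fbar M)) (x : FK M L) (a : L) :
    ValAt M L w x a ↔ (cL M L x = algebraMap Qbar (Fbar M) (algebraMap L Qbar a) ∨
      0 < w.ord (cL M L x - algebraMap Qbar (Fbar M) (algebraMap L Qbar a))) := by
  unfold ValAt
  rw [map_sub, cL_algebraMap]
  constructor
  · rintro (h | h)
    · left
      rw [h, cL_algebraMap]
    · exact Or.inr h
  · rintro (h | h)
    · left
      apply cL_injective M L
      rw [h, cL_algebraMap]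
    · exact Or.inr h

/-- **Uniqueness of the value.** -/
theorem value_unique (w : Place Qbar (Fbar M)) (x : FK M L) (a a' : L)
    (h : ValAt M L w x a) (h' : ValAt M L w x a') : a = a' := by
  rw [valAt_iff] at h h'
  have h1 : cL M L x - algebraMap Qbar (Fbar M) (algebraMap L Qbar a) = 0 ∨
      1 ≤ w.ord (cL M L x - algebraMap Qbar (Fbar M) (algebraMap L Qbar a)) := by
    rcases h with h | h
    · exact Or.inl (sub_eq_zero.2 h)
    · exact Or.inr h
  have h2 : cL M L x - algebraMap Qbar (Fbar M) (algebraMap L Qbar a') = 0 ∨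
      1 ≤ w.ord (cL M L x - algebraMap Qbar (Fbar M) (algebraMap L Qbar a')) := by
    rcases h' with h' | h'
    · exact Or.inl (sub_eq_zero.2 h')
    · exact Or.inr h'
  have h3 := ordGE_id_sub w 1 h1 h2
  have h4 : (cL M L x - algebraMap Qbar (Fbar M) (algebraMap L Qbar a))
      - (cL M L x - algebraMap Qbar (Fbar M) (algebraMap L Qbar a'))
      = algebraMap Qbar (Fbar M) (algebraMap L Qbar a' - algebraMap L Qbar a) := by
    rw [map_sub]
    ring
  rw [h4, ord_algebraMap] at h3
  rcases h3 with h3 | h3
  · have h5 := (map_eq_zero (algebraMap Qbar (Fbar M))).1 h3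
    have h6 : algebraMap L Qbar a' = algebraMap L Qbar a := sub_eq_zero.1 h5
    exact ((algebraMap L Qbar).injective h6).symm
  · omega

theorem valAt_algebraMap (w : Place Qbar (Fbar M)) (a : L) :
    ValAt M L w (algebraMap L (FK M L) a) a := Or.inl rfl

variable [NeZero M]

/-- **The point of a rational place**: evaluation at `w` as a ring homomorphism to `L`. -/
theorem exists_point_hom {B : Type*} [CommRing B] (φ : B →+* FK M L)
    (w : Place Qbar (Fbar M)) (hw : IsRatPlace L w)
    (hφ : ∀ b, cL M L (φ b) ∈ w.toValuationSubring) :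
    ∃ q : B →+* L, ∀ b, ValAt M L w (φ b) (q b) := by
  have hx := Fermat.Agent.RED.TOP.FbarFacts20.isGen_j M
  let ψ : B →+* Qbar :=
    ((Fermat.Agent.ES.RED.PlaceValue13.valueHom hx w : w.toValuationSubring →+* Qbar)).comp
      (((cL M L).comp φ).codRestrict w.toValuationSubring.toSubring hφ)
  have hψ : ∀ b, ∀ a : L, ValAt M L w (φ b) a → ψ b = algebraMap L Qbar a := by
    intro b a ha
    rw [valAt_iff] at ha
    exact (Fermat.Agent.ES.RED.PlaceValue13.valueHom_eq_iff hx w
      (⟨cL M L (φ b), hφ b⟩ : w.toValuationSubring) (algebraMap L Qbar a)).2 ha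
  have hmem : ∀ b, ψ b ∈ L := by
    intro b
    obtain ⟨a, ha⟩ := exists_value_mem M L w hw (φ b) (hφ b)
    rw [hψ b a ha]
    exact a.2
  refine ⟨ψ.codRestrict L hmem, fun b => ?_⟩
  obtain ⟨a, ha⟩ := exists_value_mem M L w hw (φ b) (hφ b)
  have : ψ.codRestrict L hmem b = a := Subtype.ext (hψ b a ha)
  rw [this]
  exact ha

end Fermat.Agent.T1.Dict67
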