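import Mathlib
import Fermat.Agent.T1.Dict59.Level
import Fermat.Agent.T1.Adapt39.Inst
import Fermat.Agent.T1.Dict67.PtHom

/-!
# T1A / G7 DICT, helper67: the `L`-point of the model under an `L`-rational place

Vocabulary of `Dict59/Level.lean` (`IsPtOf0`, `IsPtOf1`), `E : ChartIso (c0.baseChange L) t`.

* (T2) `exists_isPtOf0` / `exists_isPtOf1` : an `L`-rational place `w` in chart `j` has an `L`-point
  `q : B_j →ₐ[W] L` of the model under it;
* (T3) `isPtOf0_unique` / `isPtOf1_unique`;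
* bridges to helper39's (B4): `isPtPair_ptPair0` / `isPtPair_ptPair1` in `Level` vocabulary.
-/

set_option autoImplicit false
set_option linter.unusedSectionVars false
set_option linter.unusedVariables false
set_option synthInstance.maxHeartbeats 400000
set_option maxHeartbeats 1000000

noncomputable section

open HahnSeries AlgebraicCurve ModularCurve IntermediateField TensorProduct
open Fermat.Agent.RED.Interface4 Fermat.Agent.T1.Dict59
open Fermat.Agent.Jac Fermat.Agent.Jac.BaseChange75 Fermat.Agent.T1.Adapt96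
open Fermat.Agent.T1.PtLine75
open scoped Fermat.Agent.Jac.BaseChange75

namespace Fermat.Agent.T1.Dict67

variable {W B0 B1 B01 : Type} [CommRing W] [CommRing B0] [CommRing B1] [CommRing B01]
  [Algebra W B0] [Algebra W B1] [Algebra W B01] [Algebra B0 B01] [Algebra B1 B01]
  [IsScalarTower W B0 B01] [IsScalarTower W B1 B01]
  (c0 : TwoChart W B0 B1 B01)
  {M : ℕ} {L : IntermediateField ℚ Qbar} [Algebra W L] {t : FK M L}
  (E : ChartIso (c0.baseChange L) t)

theorem isPtOf0_iff (w : Place Qbar (Fbar M)) (q : B0 →ₐ[W] L) :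
    IsPtOf0 c0 E w q ↔ ∀ b : B0, ValAt M L w (E.ι0 ((1 : L) ⊗ₜ[W] b)) (q b) := Iff.rfl

theorem isPtOf1_iff (w : Place Qbar (Fbar M)) (q : B1 →ₐ[W] L) :
    IsPtOf1 c0 E w q ↔ ∀ b : B1, ValAt M L w (E.ι1 ((1 : L) ⊗ₜ[W] b)) (q b) := Iff.rfl

/-- **(T3)**, chart 0. -/
theorem isPtOf0_unique (w : Place Qbar (Fbar M)) (q q' : B0 →ₐ[W] L)
    (h : IsPtOf0 c0 E w q) (h' : IsPtOf0 c0 E w q') : q = q' :=
  AlgHom.ext fun b => value_unique M L w _ _ _ (h b) (h' b)

/-- **(T3)**, chart 1. -/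
theorem isPtOf1_unique (w : Place Qbar (Fbar M)) (q q' : B1 →ₐ[W] L)
    (h : IsPtOf1 c0 E w q) (h' : IsPtOf1 c0 E w q') : q = q' :=
  AlgHom.ext fun b => value_unique M L w _ _ _ (h b) (h' b)

theorem one_tmul_algebraMap {B : Type} [CommRing B] [Algebra W B] (r : W) :
    (1 : L) ⊗ₜ[W] algebraMap W B r = (algebraMap W L r) ⊗ₜ[W] (1 : B) := by
  rw [Algebra.algebraMap_eq_smul_one, Algebra.algebraMap_eq_smul_one, TensorProduct.tmul_smul,
    TensorProduct.smul_tmul']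

/-- **(T2)**, chart 0. -/
theorem exists_isPtOf0 [NeZero M] (w : Place Qbar (Fbar M)) (hrat : IsRatPlace L w)
    (hw : cL M L t ∈ w.toValuationSubring) : ∃ q : B0 →ₐ[W] L, IsPtOf0 c0 E w q := by
  let φ : B0 →+* FK M L :=
    E.ι0.comp (Algebra.TensorProduct.includeRight : B0 →ₐ[W] L ⊗[W] B0).toRingHom
  have hφ : ∀ b, cL M L (φ b) ∈ w.toValuationSubring := fun b =>
    cL_mem_of_mem_C0 M L w t hw (E.e0 ((1 : L) ⊗ₜ[W] b)).2
  obtain ⟨q, hq⟩ := exists_point_hom M L φ w hrat hφ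
  refine ⟨{ q with commutes' := fun r => ?_ }, fun b => hq b⟩
  have h1 : φ (algebraMap W B0 r) = algebraMap L (FK M L) (algebraMap W L r) := by
    show E.ι0 ((1 : L) ⊗ₜ[W] algebraMap W B0 r) = _
    rw [one_tmul_algebraMap]
    exact Fermat.Agent.T1.Adapt39.chartIso_e0_const c0 E _
  have h2 : ValAt M L w (φ (algebraMap W B0 r)) (algebraMap W L r) := by
    rw [h1]
    exact valAt_algebraMap M L w _
  exact value_unique M L w _ _ _ (hq _) h2

/-- **(T2)**, chart 1. -/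
theorem exists_isPtOf1 [NeZero M] (w : Place Qbar (Fbar M)) (hrat : IsRatPlace L w)
    (hw : cL M L t⁻¹ ∈ w.toValuationSubring) : ∃ q : B1 →ₐ[W] L, IsPtOf1 c0 E w q := by
  let φ : B1 →+* FK M L :=
    E.ι1.comp (Algebra.TensorProduct.includeRight : B1 →ₐ[W] L ⊗[W] B1).toRingHom
  have hφ : ∀ b, cL M L (φ b) ∈ w.toValuationSubring := fun b =>
    cL_mem_of_mem_C0 M L w t⁻¹ hw (E.e1 ((1 : L) ⊗ₜ[W] b)).2
  obtain ⟨q, hq⟩ := exists_point_hom M L φ w hrat hφ
  refine ⟨{ q with commutes' := fun r => ?_ }, fun b => hq b⟩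
  have h1 : φ (algebraMap W B1 r) = algebraMap L (FK M L) (algebraMap W L r) := by
    show E.ι1 ((1 : L) ⊗ₜ[W] algebraMap W B1 r) = _
    rw [one_tmul_algebraMap]
    exact Fermat.Agent.T1.Adapt39.chartIso_e1_const c0 E _
  have h2 : ValAt M L w (φ (algebraMap W B1 r)) (algebraMap W L r) := by
    rw [h1]
    exact valAt_algebraMap M L w _
  exact value_unique M L w _ _ _ (hq _) h2

/-- Bridge to helper39's valuation form. -/
theorem valOfPlace_lt_one_of_valAt (w : Place Qbar (Fbar M)) (x : FK M L) (a : L)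
    (h : ValAt M L w x a) :
    Fermat.Agent.T1.Adapt39.valOfPlace w (x - algebraMap L (FK M L) a) < 1 :=
  (Fermat.Agent.T1.Adapt39.valOfPlace_lt_one_iff w _).2 (h.imp (fun h0 => sub_eq_zero.2 h0) id)

/-- **(T1)**: the line pair of the point `q` under `w` (chart 0) is the ideal sheaf of `w`. -/
theorem isPtPair_ptPair0 (w : Place Qbar (Fbar M)) (hw : cL M L t ∈ w.toValuationSubring)
    (q : B0 →ₐ[W] L) (hq : IsPtOf0 c0 E w q)
    (h0 : (ptPair0 c0 q).I0 ≠ ⊥) (h1 : (ptPair0 c0 q).I1 ≠ ⊥)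
    (hfg0 : (ptPair0 c0 q).I0.FG) (hfg1 : (ptPair0 c0 q).I1.FG) :
    IsPtPair w (E.toLinePair (ptPair0 c0 q) h0 h1 hfg0 hfg1) :=
  Fermat.Agent.T1.Adapt39.isPtPair_toLinePair_ptPair0 c0 E w hw q
    (fun b => valOfPlace_lt_one_of_valAt w _ _ (hq b)) h0 h1 hfg0 hfg1

/-- **(T1')**: chart 1. -/
theorem isPtPair_ptPair1 (w : Place Qbar (Fbar M)) (hw : cL M L t ∉ w.toValuationSubring)
    (q : B1 →ₐ[W] L) (hq : IsPtOf1 c0 E w q)
    (h0 : (ptPair1 c0 q).I0 ≠ ⊥) (h1 : (ptPair1 c0 q).I1 ≠ ⊥)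
    (hfg0 : (ptPair1 c0 q).I0.FG) (hfg1 : (ptPair1 c0 q).I1.FG) :
    IsPtPair w (E.toLinePair (ptPair1 c0 q) h0 h1 hfg0 hfg1) := by
  have hw' : cL M L t⁻¹ ∈ w.toValuationSubring := by
    rw [map_inv₀]
    exact (w.toValuationSubring.mem_or_inv_mem _).resolve_left hw
  exact Fermat.Agent.T1.Adapt39.isPtPair_toLinePair_ptPair1 c0 E w hw' q
    (fun b => valOfPlace_lt_one_of_valAt w _ _ (hq b)) h0 h1 hfg0 hfg1

end Fermat.Agent.T1.Dict67
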